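/-
Tors project (block A of S13): Ward's theorem for Mathlib's normalised elliptic divisibility
sequence `normEDS b c d`: the sequence, which Mathlib defines through the two duplication
recurrences, satisfies the full two-parameter elliptic sequence relation

  `W(p+q) W(p-q) = W(p+1) W(p-1) W(q)² - W(q+1) W(q-1) W(p)²`      (`ERel W p q`)

and its "odd" companion

  `W(p+q+1) W(p-q) W(2) = W(p+2) W(p-1) W(q+1) W(q) - W(p+1) W(p) W(q+2) W(q-1)`  (`ORel W p q`)

for all integers `p, q`, over every commutative ring.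

The proof is a strong induction on `p + q`.  Writing `v_p = (W(p+1) W(p-1), W(p)²)` and
`u_p = (W(p+2) W(p-1), W(p+1) W(p))`, the relations say `W(p+q) W(p-q) = det (v_p, v_q)` and
`W(p+q+1) W(p-q) W(2) = det (u_p, u_q)`, and every induction step is an instance of the
Plücker identity `det(a,c) det(b,d) - det(a,d) det(b,c) = det(a,b) det(c,d)`.
-/
import Mathlib

set_option autoImplicit false

namespace Fermat.Agent.Tors

variable {R : Type*} [CommRing R]

/-- The elliptic sequence relation `E(p,q)`. -/
def ERel (W : ℤ → R) (p q : ℤ) : Prop :=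
  W (p + q) * W (p - q) = W (p + 1) * W (p - 1) * W q ^ 2 - W (q + 1) * W (q - 1) * W p ^ 2

/-- The companion relation `O(p,q)` (odd index sums). -/
def ORel (W : ℤ → R) (p q : ℤ) : Prop :=
  W (p + q + 1) * W (p - q) * W 2 =
    W (p + 2) * W (p - 1) * W (q + 1) * W q - W (p + 1) * W p * W (q + 2) * W (q - 1)

/-- A sequence satisfying the normalisations and the two duplication recurrences that define
Mathlib's `normEDS`. -/
structure IsWard (W : ℤ → R) : Prop where
  zero : W 0 = 0
  one : W 1 = 1
  neg : ∀ n, W (-n) = -W n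
  odd : ∀ m, W (2 * m + 1) = W (m + 2) * W m ^ 3 - W (m - 1) * W (m + 1) ^ 3
  even : ∀ m, W (2 * m) * W 2 =
    W (m - 1) ^ 2 * W m * W (m + 2) - W (m - 2) * W m * W (m + 1) ^ 2

section Pluecker

variable (W : ℤ → R) (m k : ℤ)

/-- `E` at odd level from four lower `E`'s and the two odd duplication formulas. -/
lemma ERel_of_odd_level
    (h1 : ERel W (m + 1) (k + 1)) (h2 : ERel W m k) (h3 : ERel W (m + 1) k)
    (h4 : ERel W m (k + 1))
    (hm : W (2 * m + 1) = W (m + 2) * W m ^ 3 - W (m - 1) * W (m + 1) ^ 3)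
    (hk : W (2 * k + 1) = W (k + 2) * W k ^ 3 - W (k - 1) * W (k + 1) ^ 3) :
    ERel W (m + k + 1) (m - k) := by
  unfold ERel at *
  linear_combination (norm := ring_nf) W (2 * k + 1) * hm
    + (W (m + 2) * W m ^ 3 - W (m - 1) * W (m + 1) ^ 3) * hk
    - (W (m + k) * W (m - k)) * h1
    - (W (m + 1 + 1) * W (m + 1 - 1) * W (k + 1) ^ 2
        - W (k + 1 + 1) * W (k + 1 - 1) * W (m + 1) ^ 2) * h2
    + (W (m + k + 1) * W (m - k - 1)) * h3
    + (W (m + 1 + 1) * W (m + 1 - 1) * W k ^ 2 - W (k + 1) * W (k - 1) * W (m + 1) ^ 2) * h4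

/-- `W(2)² · E` at even level from four lower `O`'s and the two even duplication formulas. -/
lemma sq_mul_ERel_of_even_level
    (h1 : ORel W m k) (h2 : ORel W (m - 1) (k - 1)) (h3 : ORel W m (k - 1))
    (h4 : ORel W (m - 1) k)
    (hm : W (2 * m) * W 2 =
      W (m - 1) ^ 2 * W m * W (m + 2) - W (m - 2) * W m * W (m + 1) ^ 2)
    (hk : W (2 * k) * W 2 =
      W (k - 1) ^ 2 * W k * W (k + 2) - W (k - 2) * W k * W (k + 1) ^ 2) :
    W 2 ^ 2 * (W (m + k + (m - k)) * W (m + k - (m - k))) =
      W 2 ^ 2 * (W (m + k + 1) * W (m + k - 1) * W (m - k) ^ 2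
        - W (m - k + 1) * W (m - k - 1) * W (m + k) ^ 2) := by
  unfold ORel at *
  linear_combination (norm := ring_nf) (W (2 * k) * W 2) * hm
    + (W (m - 1) ^ 2 * W m * W (m + 2) - W (m - 2) * W m * W (m + 1) ^ 2) * hk
    - (W (m + k - 1) * W (m - k) * W 2) * h1
    - (W (m + 2) * W (m - 1) * W (k + 1) * W k - W (m + 1) * W m * W (k + 2) * W (k - 1)) * h2
    + (W (m + k) * W (m - k - 1) * W 2) * h3
    + (W (m + 2) * W (m - 1) * W (k - 1 + 1) * W (k - 1)
        - W (m + 1) * W m * W (k - 1 + 2) * W (k - 1 - 1)) * h4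

/-- `O` at even level from four lower `E`'s, the even duplication formula at `m` and the odd
one at `k`. -/
lemma ORel_of_even_level
    (h1 : ERel W (m + 1) (k + 1)) (h2 : ERel W (m - 1) k) (h3 : ERel W (m + 1) k)
    (h4 : ERel W (m - 1) (k + 1))
    (hm : W (2 * m) * W 2 =
      W (m - 1) ^ 2 * W m * W (m + 2) - W (m - 2) * W m * W (m + 1) ^ 2)
    (hk : W (2 * k + 1) = W (k + 2) * W k ^ 3 - W (k - 1) * W (k + 1) ^ 3) :
    ORel W (m + k) (m - k - 1) := by
  unfold ERel ORel at *
  linear_combination (norm := ring_nf) W (2 * k + 1) * hm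
    + (W (m - 1) ^ 2 * W m * W (m + 2) - W (m - 2) * W m * W (m + 1) ^ 2) * hk
    - (W (m + k - 1) * W (m - k - 1)) * h1
    - (W (m + 1 + 1) * W (m + 1 - 1) * W (k + 1) ^ 2
        - W (k + 1 + 1) * W (k + 1 - 1) * W (m + 1) ^ 2) * h2
    + (W (m + k) * W (m - k - 2)) * h3
    + (W (m + 1 + 1) * W (m + 1 - 1) * W k ^ 2 - W (k + 1) * W (k - 1) * W (m + 1) ^ 2) * h4

/-- `O` at odd level from four lower `E`'s, the odd duplication formula at `m` and the even
one at `k`. -/
lemma ORel_of_odd_level
    (h1 : ERel W (m + 1) (k + 1)) (h2 : ERel W m (k - 1)) (h3 : ERel W m (k + 1))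
    (h4 : ERel W (m + 1) (k - 1))
    (hm : W (2 * m + 1) = W (m + 2) * W m ^ 3 - W (m - 1) * W (m + 1) ^ 3)
    (hk : W (2 * k) * W 2 =
      W (k - 1) ^ 2 * W k * W (k + 2) - W (k - 2) * W k * W (k + 1) ^ 2) :
    ORel W (m + k) (m - k) := by
  unfold ERel ORel at *
  linear_combination (norm := ring_nf) (W (2 * k) * W 2) * hm
    + (W (m + 2) * W m ^ 3 - W (m - 1) * W (m + 1) ^ 3) * hk
    - (W (m + k - 1) * W (m - k + 1)) * h1
    - (W (m + 1 + 1) * W (m + 1 - 1) * W (k + 1) ^ 2
        - W (k + 1 + 1) * W (k + 1 - 1) * W (m + 1) ^ 2) * h2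
    + (W (m + k) * W (m - k + 2)) * h3
    + (W (m + 1) * W (m - 1) * W (k + 1) ^ 2 - W (k + 1 + 1) * W (k + 1 - 1) * W m ^ 2) * h4

end Pluecker

namespace IsWard

variable {W : ℤ → R} (h : IsWard W)
include h

lemma neg_one : W (-1) = -1 := by rw [h.neg, h.one]

lemma ERel_zero_right (p : ℤ) : ERel W p 0 := by
  unfold ERel
  rw [add_zero, sub_zero, zero_add, zero_sub, h.neg_one, h.zero, h.one]
  ring

lemma ERel_one_right (p : ℤ) : ERel W p 1 := by
  unfold ERel
  rw [show (1 : ℤ) + 1 = 2 from rfl, sub_self, h.zero, h.one]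
  ring

lemma ERel_self (p : ℤ) : ERel W p p := by
  unfold ERel
  rw [sub_self, h.zero]
  ring

lemma ERel_add_two (m : ℤ) : ERel W (m + 1) (m - 1) := by
  unfold ERel
  have := h.even m
  linear_combination (norm := ring_nf) this

lemma ERel_add_one (m : ℤ) : ERel W (m + 1) m := by
  unfold ERel
  have := h.odd m
  rw [show m + 1 - m = 1 by ring, h.one]
  linear_combination (norm := ring_nf) this

lemma ORel_zero_right (p : ℤ) : ORel W p 0 := by
  unfold ORel
  rw [add_zero, sub_zero, zero_add, zero_add, zero_sub, h.neg_one, h.zero, h.one]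
  ring

lemma ORel_one_right (p : ℤ) : ORel W p 1 := by
  unfold ORel
  rw [show (1 : ℤ) + 1 = 2 from rfl, show (1 : ℤ) + 2 = 3 from rfl, sub_self, h.zero, h.one]
  ring_nf

lemma ORel_self (p : ℤ) : ORel W p p := by
  unfold ORel
  rw [sub_self, h.zero]
  ring

lemma ERel_swap {p q : ℤ} (hpq : ERel W p q) : ERel W q p := by
  unfold ERel at *
  have e : W (q - p) = -W (p - q) := by rw [← h.neg]; congr 1; ring
  rw [e, add_comm q p]
  linear_combination -hpq

lemma ERel_neg_right {p q : ℤ} (hpq : ERel W p q) : ERel W p (-q) := by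
  unfold ERel at *
  have e1 : W (-q + 1) = -W (q - 1) := by rw [← h.neg]; congr 1; ring
  have e2 : W (-q - 1) = -W (q + 1) := by rw [← h.neg]; congr 1; ring
  rw [e1, e2, h.neg, ← sub_eq_add_neg, sub_neg_eq_add]
  linear_combination hpq

lemma ERel_neg_left {p q : ℤ} (hpq : ERel W p q) : ERel W (-p) q :=
  h.ERel_swap (h.ERel_neg_right (h.ERel_swap hpq))

/-- The main induction: all relations of level `n`, in the region `0 ≤ q ≤ p`. -/
theorem rel_of_level [NoZeroDivisors R] (hb : W 2 ≠ 0) (n : ℕ) :
    (∀ p q : ℤ, 0 ≤ q → q ≤ p → p + q = n → ERel W p q) ∧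
      (∀ p q : ℤ, 0 ≤ q → q ≤ p → p + q + 1 = n → ORel W p q) := by
  induction n using Nat.strong_induction_on with
  | _ n ih =>
  have IHE : ∀ p q : ℤ, 0 ≤ q → q ≤ p → p + q < n → ERel W p q := by
    intro p q hq hpq hlt
    have h0 : 0 ≤ p + q := by omega
    refine (ih (p + q).toNat ?_).1 p q hq hpq ?_
    · omega
    · omega
  have IHO : ∀ p q : ℤ, 0 ≤ q → q ≤ p → p + q + 1 < n → ORel W p q := by
    intro p q hq hpq hlt
    have h0 : 0 ≤ p + q + 1 := by omega
    refine (ih (p + q + 1).toNat ?_).2 p q hq hpq ?_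
    · omega
    · omega
  constructor
  · intro p q hq hpq hn
    rcases eq_or_lt_of_le hq with rfl | hq0
    · exact h.ERel_zero_right p
    rcases eq_or_lt_of_le (show (1 : ℤ) ≤ q by omega) with rfl | hq1
    · exact h.ERel_one_right p
    obtain ⟨k, hk | hk⟩ := Int.even_or_odd' (p - q)
    · -- even level
      rcases eq_or_lt_of_le (show 0 ≤ k by omega) with rfl | hk0
      · obtain rfl : p = q := by omega
        exact h.ERel_self p
      have key := sq_mul_ERel_of_even_level W (q + k) k
        (IHO _ _ (by omega) (by omega) (by omega))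
        (IHO _ _ (by omega) (by omega) (by omega))
        (IHO _ _ (by omega) (by omega) (by omega))
        (IHO _ _ (by omega) (by omega) (by omega))
        (h.even _) (h.even _)
      have key' := mul_left_cancel₀ (pow_ne_zero 2 hb) key
      have e1 : q + k + k = p := by omega
      have e2 : q + k - k = q := by ring
      rw [e1, e2] at key'
      exact key'
    · -- odd level
      have key := ERel_of_odd_level W (q + k) k
        (IHE _ _ (by omega) (by omega) (by omega))
        (IHE _ _ (by omega) (by omega) (by omega))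
        (IHE _ _ (by omega) (by omega) (by omega))
        (IHE _ _ (by omega) (by omega) (by omega))
        (h.odd _) (h.odd _)
      have e1 : q + k + k + 1 = p := by omega
      have e2 : q + k - k = q := by ring
      rw [e1, e2] at key
      exact key
  · intro p q hq hpq hn
    rcases eq_or_lt_of_le hq with rfl | hq0
    · exact h.ORel_zero_right p
    rcases eq_or_lt_of_le (show (1 : ℤ) ≤ q by omega) with rfl | hq1
    · exact h.ORel_one_right p
    obtain ⟨k, hk | hk⟩ := Int.even_or_odd' (p - q)
    · -- `p - q = 2k`, odd level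
      rcases eq_or_lt_of_le (show 0 ≤ k by omega) with rfl | hk0
      · obtain rfl : p = q := by omega
        exact h.ORel_self p
      have key := ORel_of_odd_level W (q + k) k
        (IHE _ _ (by omega) (by omega) (by omega))
        (IHE _ _ (by omega) (by omega) (by omega))
        (IHE _ _ (by omega) (by omega) (by omega))
        (IHE _ _ (by omega) (by omega) (by omega))
        (h.odd _) (h.even _)
      have e1 : q + k + k = p := by omega
      have e2 : q + k - k = q := by ring
      rw [e1, e2] at key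
      exact key
    · -- `p - q = 2k + 1`, even level
      have key := ORel_of_even_level W (q + k + 1) k
        (IHE _ _ (by omega) (by omega) (by omega))
        (IHE _ _ (by omega) (by omega) (by omega))
        (IHE _ _ (by omega) (by omega) (by omega))
        (IHE _ _ (by omega) (by omega) (by omega))
        (h.even _) (h.odd _)
      have e1 : q + k + 1 + k = p := by omega
      have e2 : q + k + 1 - k - 1 = q := by ring
      rw [e1, e2] at key
      exact key

/-- **Ward's theorem** (in a domain with `W 2 ≠ 0`). -/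
theorem ERel_all [NoZeroDivisors R] (hb : W 2 ≠ 0) (p q : ℤ) : ERel W p q := by
  have nonneg : ∀ p q : ℤ, 0 ≤ p → 0 ≤ q → ERel W p q := by
    intro p q hp hq
    rcases le_total q p with hqp | hpq
    · exact (h.rel_of_level hb (p + q).toNat).1 p q hq hqp (by omega)
    · exact h.ERel_swap ((h.rel_of_level hb (q + p).toNat).1 q p hp hpq (by omega))
  rcases le_total 0 p with hp | hp <;> rcases le_total 0 q with hq | hq
  · exact nonneg p q hp hq
  · have := h.ERel_neg_right (nonneg p (-q) hp (by omega))
    rwa [neg_neg] at this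
  · have := h.ERel_neg_left (nonneg (-p) q (by omega) hq)
    rwa [neg_neg] at this
  · have := h.ERel_neg_left (h.ERel_neg_right (nonneg (-p) (-q) (by omega) (by omega)))
    rwa [neg_neg, neg_neg] at this

end IsWard

section NormEDS

/-- Mathlib's `normEDS` satisfies the normalisations and the duplication recurrences. -/
lemma isWard_normEDS (b c d : R) : IsWard (normEDS b c d) where
  zero := normEDS_zero b c d
  one := normEDS_one b c d
  neg := normEDS_neg b c d
  odd := normEDS_odd b c d
  even m := by rw [normEDS_two]; exact normEDS_even b c d m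

/-- **Ward's theorem** for `normEDS`, over an arbitrary commutative ring: the sequence
`W = normEDS b c d` satisfies
`W(p+q) W(p-q) = W(p+1) W(p-1) W(q)² - W(q+1) W(q-1) W(p)²` for all integers `p, q`. -/
theorem normEDS_ERel (b c d : R) (p q : ℤ) : ERel (normEDS b c d) p q := by
  -- universal case
  let U := MvPolynomial (Fin 3) ℤ
  let B : U := MvPolynomial.X 0
  let C : U := MvPolynomial.X 1
  let D : U := MvPolynomial.X 2
  have hU : ERel (normEDS B C D) p q := by
    refine (isWard_normEDS B C D).ERel_all ?_ p q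
    rw [normEDS_two]
    exact MvPolynomial.X_ne_zero 0
  -- specialise
  let f : U →+* R := MvPolynomial.eval₂Hom (Int.castRingHom R) ![b, c, d]
  have hB : f B = b := by
    show (MvPolynomial.eval₂Hom (Int.castRingHom R) ![b, c, d]) (MvPolynomial.X 0) = b
    rw [MvPolynomial.eval₂Hom_X']; rfl
  have hC : f C = c := by
    show (MvPolynomial.eval₂Hom (Int.castRingHom R) ![b, c, d]) (MvPolynomial.X 1) = c
    rw [MvPolynomial.eval₂Hom_X']; rfl
  have hD : f D = d := by
    show (MvPolynomial.eval₂Hom (Int.castRingHom R) ![b, c, d]) (MvPolynomial.X 2) = d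
    rw [MvPolynomial.eval₂Hom_X']; rfl
  have hf : ∀ n : ℤ, f (normEDS B C D n) = normEDS b c d n := by
    intro n
    rw [map_normEDS, hB, hC, hD]
  unfold ERel at hU ⊢
  have := congrArg f hU
  simpa only [map_mul, map_sub, map_pow, hf] using this

/-- The relation `E(n,2)`: `W(n+2) W(n-2) = W(n+1) W(n-1) b² - c W(n)²`. -/
theorem normEDS_rel_two (b c d : R) (n : ℤ) :
    normEDS b c d (n + 2) * normEDS b c d (n - 2) =
      normEDS b c d (n + 1) * normEDS b c d (n - 1) * b ^ 2 - c * normEDS b c d n ^ 2 := by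
  have := normEDS_ERel b c d n 2
  unfold ERel at this
  rw [show (2 : ℤ) + 1 = 3 from rfl, show (2 : ℤ) - 1 = 1 from rfl, normEDS_two, normEDS_three,
    normEDS_one] at this
  linear_combination this

end NormEDS

end Fermat.Agent.Tors
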