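/-
Tors project (block A of S13): the cubic identity

  `W(n+2) W(n-1)² + W(n-2) W(n+1)² = A · W(n+1) W(n) W(n-1) - b² W(n)³`     (K)

for `W = normEDS b c d` with `d = A c - b⁴` (for division polynomials: `A = 6x² + b₂x + b₄`),
over an arbitrary commutative ring, and its consequences: the `x`-coordinate addition-subtraction
law in division polynomial form (`sum_law`, `prod_law`).
-/
import Fermat.Agent.Tors.Ward

set_option autoImplicit false

namespace Fermat.Agent.Tors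

variable {R : Type*} [CommRing R]

/-- The identity sequence is `normEDS 2 3 2`. -/
theorem normEDS_two_three_two_nat (n : ℕ) : normEDS (2 : ℤ) 3 2 (n : ℤ) = n := by
  induction n using Nat.strong_induction_on with
  | _ n ih =>
  rcases Nat.even_or_odd' n with ⟨m, rfl | rfl⟩
  · -- `n = 2m`
    rcases Nat.lt_or_ge m 3 with hm | hm
    · interval_cases m
      · simp
      · simp
      · show normEDS (2 : ℤ) 3 2 4 = 4
        rw [normEDS_four]; norm_num
    · have h1 : normEDS (2 : ℤ) 3 2 ((m - 1 : ℕ) : ℤ) = (m - 1 : ℕ) := ih _ (by omega)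
      have h2 : normEDS (2 : ℤ) 3 2 ((m - 2 : ℕ) : ℤ) = (m - 2 : ℕ) := ih _ (by omega)
      have h3 : normEDS (2 : ℤ) 3 2 ((m : ℕ) : ℤ) = m := ih _ (by omega)
      have h4 : normEDS (2 : ℤ) 3 2 ((m + 1 : ℕ) : ℤ) = (m + 1 : ℕ) := ih _ (by omega)
      have h5 : normEDS (2 : ℤ) 3 2 ((m + 2 : ℕ) : ℤ) = (m + 2 : ℕ) := ih _ (by omega)
      have key := normEDS_even (2 : ℤ) 3 2 (m : ℤ)
      have e1 : ((m - 1 : ℕ) : ℤ) = (m : ℤ) - 1 := by omega
      have e2 : ((m - 2 : ℕ) : ℤ) = (m : ℤ) - 2 := by omega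
      rw [e1] at h1
      rw [e2] at h2
      push_cast at h4 h5 ⊢
      rw [h1, h2, h3, h4, h5] at key
      have : normEDS (2 : ℤ) 3 2 (2 * (m : ℤ)) * 2 = (2 * (m : ℤ)) * 2 := by
        rw [key]; ring
      exact mul_right_cancel₀ (two_ne_zero) this
  · -- `n = 2m+1`
    rcases Nat.lt_or_ge m 2 with hm | hm
    · interval_cases m
      · simp
      · show normEDS (2 : ℤ) 3 2 3 = 3
        rw [normEDS_three]
    · have h1 : normEDS (2 : ℤ) 3 2 ((m - 1 : ℕ) : ℤ) = (m - 1 : ℕ) := ih _ (by omega)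
      have h3 : normEDS (2 : ℤ) 3 2 ((m : ℕ) : ℤ) = m := ih _ (by omega)
      have h4 : normEDS (2 : ℤ) 3 2 ((m + 1 : ℕ) : ℤ) = (m + 1 : ℕ) := ih _ (by omega)
      have h5 : normEDS (2 : ℤ) 3 2 ((m + 2 : ℕ) : ℤ) = (m + 2 : ℕ) := ih _ (by omega)
      have key := normEDS_odd (2 : ℤ) 3 2 (m : ℤ)
      have e1 : ((m - 1 : ℕ) : ℤ) = (m : ℤ) - 1 := by omega
      rw [e1] at h1
      push_cast at h4 h5 ⊢
      rw [h1, h3, h4, h5] at key
      rw [key]; ring

theorem normEDS_two_three_two (n : ℤ) : normEDS (2 : ℤ) 3 2 n = n := by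
  rcases Int.eq_nat_or_neg n with ⟨m, rfl | rfl⟩
  · exact normEDS_two_three_two_nat m
  · rw [normEDS_neg, normEDS_two_three_two_nat]

/-- The statement (K) at index `n`. -/
def KRel (W : ℤ → R) (A b : R) (n : ℤ) : Prop :=
  W (n + 2) * W (n - 1) ^ 2 + W (n - 2) * W (n + 1) ^ 2 =
    A * W (n + 1) * W n * W (n - 1) - b ^ 2 * W n ^ 3

/-- Induction step for (K), up to the factor `W(n-1)`. -/
lemma KRel_step (W : ℤ → R) (A b c : R) (n : ℤ) (hK : KRel W A b n)
    (hE : W (n + 2) * W (n - 2) = W (n + 1) * W (n - 1) * b ^ 2 - c * W n ^ 2)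
    (hE' : W (n + 1 + 2) * W (n + 1 - 2) =
      W (n + 1 + 1) * W (n + 1 - 1) * b ^ 2 - c * W (n + 1) ^ 2) :
    W (n - 1) * (W (n + 1 + 2) * W (n + 1 - 1) ^ 2 + W (n + 1 - 2) * W (n + 1 + 1) ^ 2) =
      W (n - 1) * (A * W (n + 1 + 1) * W (n + 1) * W (n + 1 - 1) - b ^ 2 * W (n + 1) ^ 3) := by
  unfold KRel at hK
  linear_combination (norm := ring_nf) W n ^ 2 * hE' + W (n + 2) * hK - W (n + 1) ^ 2 * hE

/-- (K) in a domain in which all `W(n)`, `n ≥ 1`, are nonzero. -/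
lemma KRel_of_ne_zero [NoZeroDivisors R] (b c A : R)
    (hne : ∀ n : ℕ, 0 < n → normEDS b c (A * c - b ^ 4) (n : ℤ) ≠ 0) (n : ℤ) :
    KRel (normEDS b c (A * c - b ^ 4)) A b n := by
  set W := normEDS b c (A * c - b ^ 4) with hW
  have h0 : W 0 = 0 := normEDS_zero _ _ _
  have h1 : W 1 = 1 := normEDS_one _ _ _
  have h2 : W 2 = b := normEDS_two _ _ _
  have h3 : W 3 = c := normEDS_three _ _ _
  have h4 : W 4 = (A * c - b ^ 4) * b := normEDS_four _ _ _
  have hneg : ∀ k, W (-k) = -W k := normEDS_neg _ _ _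
  have K0 : KRel W A b 0 := by
    unfold KRel
    rw [show (0 : ℤ) + 2 = 2 from rfl, show (0 : ℤ) - 1 = -1 from rfl,
      show (0 : ℤ) - 2 = -2 from rfl, show (0 : ℤ) + 1 = 1 from rfl, hneg 1, hneg 2, h0, h1, h2]
    ring
  have K1 : KRel W A b 1 := by
    unfold KRel
    rw [show (1 : ℤ) + 2 = 3 from rfl, show (1 : ℤ) - 1 = 0 from rfl,
      show (1 : ℤ) - 2 = -1 from rfl, show (1 : ℤ) + 1 = 2 from rfl, hneg 1, h0, h1, h2, h3]
    ring
  have K2 : KRel W A b 2 := by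
    unfold KRel
    rw [show (2 : ℤ) + 2 = 4 from rfl, show (2 : ℤ) - 1 = 1 from rfl,
      show (2 : ℤ) - 2 = 0 from rfl, show (2 : ℤ) + 1 = 3 from rfl, h0, h1, h2, h3, h4]
    ring
  -- natural numbers `≥ 2`
  have nat : ∀ j : ℕ, KRel W A b ((j : ℤ) + 2) := by
    intro j
    induction j with
    | zero => simpa using K2
    | succ j ih =>
      have step := KRel_step W A b c ((j : ℤ) + 2) ih
        (normEDS_rel_two b c _ _) (normEDS_rel_two b c _ _)
      have hne' : W ((j : ℤ) + 2 - 1) ≠ 0 := by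
        have := hne (j + 1) (Nat.succ_pos j)
        have e : ((j + 1 : ℕ) : ℤ) = (j : ℤ) + 2 - 1 := by push_cast; ring
        rwa [e] at this
      have := mul_left_cancel₀ hne' step
      have e : ((j + 1 : ℕ) : ℤ) + 2 = (j : ℤ) + 2 + 1 := by push_cast; ring
      rw [e]
      exact this
  have nonneg : ∀ j : ℕ, KRel W A b (j : ℤ) := by
    intro j
    rcases j with _ | _ | j
    · simpa using K0
    · simpa using K1
    · have := nat j
      have e : ((j + 1 + 1 : ℕ) : ℤ) = (j : ℤ) + 2 := by push_cast; ring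
      rw [e]
      exact this
  rcases Int.eq_nat_or_neg n with ⟨j, rfl | rfl⟩
  · exact nonneg j
  · have := nonneg j
    unfold KRel at this ⊢
    have e1 : W (-(j : ℤ) + 2) = -W ((j : ℤ) - 2) := by rw [← hneg]; congr 1; ring
    have e2 : W (-(j : ℤ) - 1) = -W ((j : ℤ) + 1) := by rw [← hneg]; congr 1; ring
    have e3 : W (-(j : ℤ) - 2) = -W ((j : ℤ) + 2) := by rw [← hneg]; congr 1; ring
    have e4 : W (-(j : ℤ) + 1) = -W ((j : ℤ) - 1) := by rw [← hneg]; congr 1; ring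
    rw [e1, e2, e3, e4, hneg]
    linear_combination -this

/-- **The identity (K)** for `normEDS b c (A c - b⁴)` over an arbitrary commutative ring. -/
theorem normEDS_KRel (b c A : R) (n : ℤ) : KRel (normEDS b c (A * c - b ^ 4)) A b n := by
  let U := MvPolynomial (Fin 3) ℤ
  let B : U := MvPolynomial.X 0
  let C : U := MvPolynomial.X 1
  let A' : U := MvPolynomial.X 2
  -- nonvanishing in the universal ring, by specialisation to the identity sequence
  let g : U →+* ℤ := MvPolynomial.eval₂Hom (Int.castRingHom ℤ) ![2, 3, 6]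
  have gB : g B = 2 := by
    show (MvPolynomial.eval₂Hom (Int.castRingHom ℤ) ![2, 3, 6]) (MvPolynomial.X 0) = 2
    rw [MvPolynomial.eval₂Hom_X']; rfl
  have gC : g C = 3 := by
    show (MvPolynomial.eval₂Hom (Int.castRingHom ℤ) ![2, 3, 6]) (MvPolynomial.X 1) = 3
    rw [MvPolynomial.eval₂Hom_X']; rfl
  have gA : g A' = 6 := by
    show (MvPolynomial.eval₂Hom (Int.castRingHom ℤ) ![2, 3, 6]) (MvPolynomial.X 2) = 6
    rw [MvPolynomial.eval₂Hom_X']; rfl
  have hne : ∀ k : ℕ, 0 < k → normEDS B C (A' * C - B ^ 4) (k : ℤ) ≠ 0 := by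
    intro k hk h0
    have := congrArg g h0
    rw [map_normEDS, map_sub, map_mul, map_pow, gA, gB, gC, map_zero,
      show (6 : ℤ) * 3 - 2 ^ 4 = 2 by norm_num, normEDS_two_three_two] at this
    omega
  have hU : KRel (normEDS B C (A' * C - B ^ 4)) A' B n := KRel_of_ne_zero B C A' hne n
  -- specialise
  let f : U →+* R := MvPolynomial.eval₂Hom (Int.castRingHom R) ![b, c, A]
  have hB : f B = b := by
    show (MvPolynomial.eval₂Hom (Int.castRingHom R) ![b, c, A]) (MvPolynomial.X 0) = b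
    rw [MvPolynomial.eval₂Hom_X']; rfl
  have hC : f C = c := by
    show (MvPolynomial.eval₂Hom (Int.castRingHom R) ![b, c, A]) (MvPolynomial.X 1) = c
    rw [MvPolynomial.eval₂Hom_X']; rfl
  have hA : f A' = A := by
    show (MvPolynomial.eval₂Hom (Int.castRingHom R) ![b, c, A]) (MvPolynomial.X 2) = A
    rw [MvPolynomial.eval₂Hom_X']; rfl
  have hf : ∀ k : ℤ, f (normEDS B C (A' * C - B ^ 4) k) = normEDS b c (A * c - b ^ 4) k := by
    intro k
    rw [map_normEDS, map_sub, map_mul, map_pow, hA, hB, hC]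
  unfold KRel at hU ⊢
  have := congrArg f hU
  simpa only [map_mul, map_sub, map_add, map_pow, hf, hA, hB] using this

/-! ### The addition-subtraction law in division polynomial form -/

section PairLaw

variable (x b c A b₂ b₄ b₆ b₈ : R)

/-- The sequence `ψ_n` attached to the parameters. -/
noncomputable def psiSeq (n : ℤ) : R := normEDS b c (A * c - b ^ 4) n

/-- The sequence `φ_n = x ψ_n² - ψ_{n+1} ψ_{n-1}`. -/
noncomputable def phiSeq (n : ℤ) : R :=
  x * psiSeq b c A n ^ 2 - psiSeq b c A (n + 1) * psiSeq b c A (n - 1)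

variable {x b c A b₂ b₄ b₆ b₈}

omit x b c A b₂ b₄ b₆ b₈ in
/-- Auxiliary form of `sum_law` for an arbitrary sequence. -/
lemma sum_law_aux (W : ℤ → R) {x b A b₂ b₄ b₆ : R}
    (hb : b ^ 2 = 4 * x ^ 3 + b₂ * x ^ 2 + 2 * b₄ * x + b₆)
    (hA : A = 6 * x ^ 2 + b₂ * x + b₄) (n : ℤ) (hK : KRel W A b n) :
    (x * W (n + 1) ^ 2 - W (n + 1 + 1) * W (n + 1 - 1)) * W (n - 1) ^ 2
        + (x * W (n - 1) ^ 2 - W (n - 1 + 1) * W (n - 1 - 1)) * W (n + 1) ^ 2 =
      2 * ((x * W n ^ 2 - W (n + 1) * W (n - 1)) + x * W n ^ 2)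
          * ((x * W n ^ 2 - W (n + 1) * W (n - 1)) * x)
        + b₂ * ((x * W n ^ 2 - W (n + 1) * W (n - 1)) * x) * W n ^ 2
        + b₄ * ((x * W n ^ 2 - W (n + 1) * W (n - 1)) + x * W n ^ 2) * W n ^ 2
        + b₆ * W n ^ 4 := by
  unfold KRel at hK
  subst hA
  linear_combination (norm := ring_nf) (-W n) * hK + (W n ^ 4) * hb

omit x b c A b₂ b₄ b₆ b₈ in
/-- Auxiliary form of `prod_law` for an arbitrary sequence. -/
lemma prod_law_aux (W : ℤ → R) {x b c A b₂ b₄ b₆ b₈ : R}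
    (hb : b ^ 2 = 4 * x ^ 3 + b₂ * x ^ 2 + 2 * b₄ * x + b₆)
    (hc : c = 3 * x ^ 4 + b₂ * x ^ 3 + 3 * b₄ * x ^ 2 + 3 * b₆ * x + b₈)
    (hA : A = 6 * x ^ 2 + b₂ * x + b₄) (n : ℤ) (hK : KRel W A b n)
    (hE : W (n + 2) * W (n - 2) = W (n + 1) * W (n - 1) * b ^ 2 - c * W n ^ 2) :
    (x * W (n + 1) ^ 2 - W (n + 1 + 1) * W (n + 1 - 1))
        * (x * W (n - 1) ^ 2 - W (n - 1 + 1) * W (n - 1 - 1)) =
      ((x * W n ^ 2 - W (n + 1) * W (n - 1)) * x) ^ 2
        - b₄ * ((x * W n ^ 2 - W (n + 1) * W (n - 1)) * x) * W n ^ 2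
        - b₆ * ((x * W n ^ 2 - W (n + 1) * W (n - 1)) + x * W n ^ 2) * W n ^ 2
        - b₈ * W n ^ 4 := by
  unfold KRel at hK
  subst hA hc
  linear_combination (norm := ring_nf) (-x * W n) * hK + (W n ^ 2) * hE
    + (x * W n ^ 4 + W n ^ 2 * W (n + 1) * W (n - 1)) * hb

/-- Sum form of the addition-subtraction law for `(nP, P)`, in division polynomial form. -/
theorem sum_law (hb : b ^ 2 = 4 * x ^ 3 + b₂ * x ^ 2 + 2 * b₄ * x + b₆)
    (hA : A = 6 * x ^ 2 + b₂ * x + b₄) (n : ℤ) :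
    phiSeq x b c A (n + 1) * psiSeq b c A (n - 1) ^ 2
        + phiSeq x b c A (n - 1) * psiSeq b c A (n + 1) ^ 2 =
      2 * (phiSeq x b c A n + x * psiSeq b c A n ^ 2) * (phiSeq x b c A n * x)
        + b₂ * (phiSeq x b c A n * x) * psiSeq b c A n ^ 2
        + b₄ * (phiSeq x b c A n + x * psiSeq b c A n ^ 2) * psiSeq b c A n ^ 2
        + b₆ * psiSeq b c A n ^ 4 :=
  sum_law_aux (psiSeq b c A) hb hA n (normEDS_KRel b c A n)

/-- Product form of the addition-subtraction law for `(nP, P)`, in division polynomial form. -/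
theorem prod_law (hb : b ^ 2 = 4 * x ^ 3 + b₂ * x ^ 2 + 2 * b₄ * x + b₆)
    (hc : c = 3 * x ^ 4 + b₂ * x ^ 3 + 3 * b₄ * x ^ 2 + 3 * b₆ * x + b₈)
    (hA : A = 6 * x ^ 2 + b₂ * x + b₄) (n : ℤ) :
    phiSeq x b c A (n + 1) * phiSeq x b c A (n - 1) =
      (phiSeq x b c A n * x) ^ 2 - b₄ * (phiSeq x b c A n * x) * psiSeq b c A n ^ 2
        - b₆ * (phiSeq x b c A n + x * psiSeq b c A n ^ 2) * psiSeq b c A n ^ 2
        - b₈ * psiSeq b c A n ^ 4 :=
  prod_law_aux (psiSeq b c A) hb hc hA n (normEDS_KRel b c A n)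
    (normEDS_rel_two b c (A * c - b ^ 4) n)

end PairLaw

end Fermat.Agent.Tors
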