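/-
Tors project (block A of S13): the multiplication-by-`n` formula for Mathlib's affine points
on a Weierstrass curve over a field, in ANY characteristic.

For a nonsingular point `P = (x, y)` put `ψ_n(P) := psiVal W x y n` (the value at `P` of the
`n`-th division polynomial, `= normEDS ψ₂(P) Ψ₃(x) preΨ₄(x) n`) and
`φ_n(P) := phiVal W x y n = x ψ_n(P)² - ψ_{n+1}(P) ψ_{n-1}(P)`.  Then for all `n : ℤ`

* `n • P = 0 ↔ ψ_n(P) = 0`,
* `n • P ≠ 0 → x(n • P) · ψ_n(P)² = φ_n(P)`,
* `ψ_n(P) = 0 → φ_n(P) ≠ 0`.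
-/
import Fermat.Agent.Tors.KIdentity
import Fermat.Agent.S05.AddSub

set_option autoImplicit false

namespace Fermat.Agent.Tors

open WeierstrassCurve WeierstrassCurve.Affine WeierstrassCurve.Affine.Point
open Fermat.Agent.S05

variable {K : Type*} [Field K] (W : Affine K)

/-- `ψ₂(P) = 2y + a₁x + a₃`. -/
def psi2 (x y : K) : K := 2 * y + W.a₁ * x + W.a₃

/-- `Ψ₃(x)`. -/
def cPar (x : K) : K := 3 * x ^ 4 + W.b₂ * x ^ 3 + 3 * W.b₄ * x ^ 2 + 3 * W.b₆ * x + W.b₈

/-- `6x² + b₂x + b₄` (half the derivative of `Ψ₂Sq`). -/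
def aPar (x : K) : K := 6 * x ^ 2 + W.b₂ * x + W.b₄

/-- The value `ψ_n(P)` of the `n`-th division polynomial at `P = (x, y)`. -/
noncomputable def psiVal (x y : K) (n : ℤ) : K :=
  psiSeq (psi2 W x y) (cPar W x) (aPar W x) n

/-- The value `φ_n(P) = x ψ_n(P)² - ψ_{n+1}(P) ψ_{n-1}(P)`. -/
noncomputable def phiVal (x y : K) (n : ℤ) : K :=
  phiSeq x (psi2 W x y) (cPar W x) (aPar W x) n

variable {W}

lemma phiVal_eq (x y : K) (n : ℤ) :
    phiVal W x y n = x * psiVal W x y n ^ 2 - psiVal W x y (n + 1) * psiVal W x y (n - 1) := rfl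

@[simp] lemma psiVal_zero (x y : K) : psiVal W x y 0 = 0 := normEDS_zero _ _ _

@[simp] lemma psiVal_one (x y : K) : psiVal W x y 1 = 1 := normEDS_one _ _ _

@[simp] lemma psiVal_two (x y : K) : psiVal W x y 2 = psi2 W x y := normEDS_two _ _ _

@[simp] lemma psiVal_neg (x y : K) (n : ℤ) : psiVal W x y (-n) = -psiVal W x y n :=
  normEDS_neg _ _ _ _

lemma phiVal_neg (x y : K) (n : ℤ) : phiVal W x y (-n) = phiVal W x y n := by
  rw [phiVal_eq, phiVal_eq, psiVal_neg, show -n + 1 = -(n - 1) by ring,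
    show -n - 1 = -(n + 1) by ring, psiVal_neg, psiVal_neg]
  ring

lemma psi2_sq {x y : K} (h : W.Equation x y) :
    psi2 W x y ^ 2 = 4 * x ^ 3 + W.b₂ * x ^ 2 + 2 * W.b₄ * x + W.b₆ := by
  have := twoDiv_eq_sq h
  rw [twoDiv] at this
  rw [psi2, ← this]

lemma psi2_sq_eq_twoDiv {x y : K} (h : W.Equation x y) : psi2 W x y ^ 2 = twoDiv W x :=
  (twoDiv_eq_sq h).symm

/-- Sum law for the values at a point of the curve. -/
lemma sum_law_val {x y : K} (h : W.Equation x y) (n : ℤ) :
    phiVal W x y (n + 1) * psiVal W x y (n - 1) ^ 2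
        + phiVal W x y (n - 1) * psiVal W x y (n + 1) ^ 2 =
      2 * (phiVal W x y n + x * psiVal W x y n ^ 2) * (phiVal W x y n * x)
        + W.b₂ * (phiVal W x y n * x) * psiVal W x y n ^ 2
        + W.b₄ * (phiVal W x y n + x * psiVal W x y n ^ 2) * psiVal W x y n ^ 2
        + W.b₆ * psiVal W x y n ^ 4 :=
  sum_law (psi2_sq h) rfl n

/-- Product law for the values at a point of the curve. -/
lemma prod_law_val {x y : K} (h : W.Equation x y) (n : ℤ) :
    phiVal W x y (n + 1) * phiVal W x y (n - 1) =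
      (phiVal W x y n * x) ^ 2 - W.b₄ * (phiVal W x y n * x) * psiVal W x y n ^ 2
        - W.b₆ * (phiVal W x y n + x * psiVal W x y n ^ 2) * psiVal W x y n ^ 2
        - W.b₈ * psiVal W x y n ^ 4 :=
  prod_law (psi2_sq h) rfl rfl n

/-- At a nonsingular point with `ψ₂(P) = 0`, the numerator of the duplication formula does
not vanish. -/
lemma dupNum_ne_zero_of_psi2_eq_zero {x y : K} (h : W.Nonsingular x y) (h2 : psi2 W x y = 0) :
    dupNum W x ≠ 0 := by
  obtain ⟨he, hns⟩ := (nonsingular_iff' x y).mp h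
  rw [psi2] at h2
  have hX : W.a₁ * y - (3 * x ^ 2 + 2 * W.a₂ * x + W.a₄) ≠ 0 := by
    rcases hns with hns | hns
    · exact hns
    · exact absurd h2 hns
  have e := (equation_iff _ _).mp he
  have key : dupNum W x = (W.a₁ * y - (3 * x ^ 2 + 2 * W.a₂ * x + W.a₄)) ^ 2 := by
    rw [dupNum]
    simp only [WeierstrassCurve.b₄, WeierstrassCurve.b₆, WeierstrassCurve.b₈]
    linear_combination (8 * x + W.a₁ ^ 2 + 4 * W.a₂) * e
      + (W.a₁ * (3 * x ^ 2 + 2 * W.a₂ * x + W.a₄ - W.a₁ * y) - (W.a₂ + 2 * x) *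
        (2 * y + W.a₁ * x + W.a₃)) * h2
  rw [key]
  exact pow_ne_zero 2 hX

section Induction

variable [DecidableEq K] {x y : K} (h : W.Nonsingular x y)

/-- The inductive statement at index `m`. -/
def Good (h : W.Nonsingular x y) (m : ℤ) : Prop :=
  (m • Point.some x y h = 0 ↔ psiVal W x y m = 0) ∧
    (m • Point.some x y h ≠ 0 →
      xc (m • Point.some x y h) * psiVal W x y m ^ 2 = phiVal W x y m) ∧
    (psiVal W x y m = 0 → phiVal W x y m ≠ 0)

lemma good_zero : Good h 0 := by
  refine ⟨by simp, fun h0 => absurd (zero_smul ℤ _) h0, fun _ => ?_⟩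
  rw [phiVal_eq, psiVal_zero, show (0 : ℤ) + 1 = 1 from rfl, show (0 : ℤ) - 1 = -1 from rfl,
    psiVal_neg, psiVal_one]
  norm_num

lemma good_one : Good h 1 := by
  refine ⟨?_, fun _ => ?_, fun h0 => ?_⟩
  · rw [one_smul, psiVal_one]
    simp
  · rw [one_smul, xc_some, phiVal_eq, psiVal_one, show (1 : ℤ) - 1 = 0 from rfl, psiVal_zero]
    ring
  · rw [psiVal_one] at h0
    exact absurd h0 one_ne_zero

/-- The induction step. -/
lemma good_step (m : ℤ) (G0 : Good h (m - 1)) (G1 : Good h m) : Good h (m + 1) := by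
  set P : W.Point := Point.some x y h with hP
  have hP0 : P ≠ 0 := Point.some_ne_zero _
  have hxP : xc P = x := rfl
  set A : W.Point := m • P with hA
  have hAp : (m + 1) • P = A + P := by rw [add_smul, one_smul]
  have hAm : (m - 1) • P = A - P := by rw [sub_smul, one_smul]
  obtain ⟨G0a, G0b, G0c⟩ := G0
  obtain ⟨G1a, G1b, G1c⟩ := G1
  rw [← hP, hAm] at G0a G0b
  rw [← hP, ← hA] at G1a G1b
  unfold Good
  rw [← hP, hAp]
  -- abbreviations
  have hf1 := phiVal_eq (W := W) x y m
  have hf2 := phiVal_eq (W := W) x y (m + 1)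
  rw [show m + 1 - 1 = m by ring] at hf2
  have SUM := sum_law_val h.1 m
  have PROD := prod_law_val h.1 m
  have hb := psi2_sq_eq_twoDiv h.1
  set s₀ := psiVal W x y (m - 1) with hs₀
  set s₁ := psiVal W x y m with hs₁
  set s₂ := psiVal W x y (m + 1) with hs₂
  set f₀ := phiVal W x y (m - 1) with hf₀
  set f₁ := phiVal W x y m with hf₁'
  set f₂ := phiVal W x y (m + 1) with hf₂'
  by_cases hA0 : A = 0
  · -- `A = 0`
    have hs1 : s₁ = 0 := G1a.mp hA0
    have hf1ne : f₁ ≠ 0 := G1c hs1
    have hs2 : s₂ ≠ 0 := by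
      intro h0
      apply hf1ne
      rw [hf1, hs1, h0]; ring
    rw [hA0, zero_add]
    refine ⟨⟨fun h0 => absurd h0 hP0, fun h0 => absurd h0 hs2⟩, fun _ => ?_, fun h0 => absurd h0 hs2⟩
    rw [hxP, hf2, hs1]; ring
  · -- `A ≠ 0`
    have hs1 : s₁ ≠ 0 := fun h0 => hA0 (G1a.mpr h0)
    have e1 : xc A * s₁ ^ 2 = f₁ := G1b hA0
    by_cases hx : xc A = xc P
    · -- `A = ± P`
      rw [hxP] at hx
      have hf1' : f₁ = x * s₁ ^ 2 := by rw [← e1, hx]
      have hs20 : s₂ * s₀ = 0 := by
        have : s₂ * s₀ = x * s₁ ^ 2 - f₁ := by rw [hf1]; ring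
        rw [this, hf1']; ring
      have SUM' : f₂ * s₀ ^ 2 + f₀ * s₂ ^ 2 = s₁ ^ 4 * twoDiv W x := by
        rw [SUM, hf1', twoDiv]; ring
      have PROD' : f₂ * f₀ = s₁ ^ 4 * dupNum W x := by
        rw [PROD, hf1', dupNum]; ring
      have hAP : A = P ∨ A = -P := (xc_eq_iff hA0 hP0).mp (by rw [hx, hxP])
      by_cases h2 : P + P = 0
      · -- `2P = 0`
        have htd : twoDiv W x = 0 := by
          have := (add_self_eq_zero_iff hP0).mp h2
          rwa [hxP] at this
        have hpsi2 : psi2 W x y = 0 := by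
          have := hb.trans htd
          exact pow_eq_zero_iff (two_ne_zero) |>.mp this
        have hdn : dupNum W x ≠ 0 := dupNum_ne_zero_of_psi2_eq_zero h hpsi2
        have hPneg : -P = P := by
          rw [eq_comm, ← sub_eq_zero, sub_neg_eq_add]; exact h2
        have hAeq : A = P := by
          rcases hAP with hAP | hAP
          · exact hAP
          · rw [hAP, hPneg]
        have hAmP : A - P = 0 := by rw [hAeq, sub_self]
        have hApP : A + P = 0 := by rw [hAeq]; exact h2
        have hs0 : s₀ = 0 := G0a.mp hAmP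
        have hf0 : f₀ ≠ 0 := G0c hs0
        have hs2 : s₂ = 0 := by
          have : f₀ * s₂ ^ 2 = 0 := by
            have := SUM'
            rw [hs0, htd] at this
            linear_combination this
          rcases mul_eq_zero.mp this with h' | h'
          · exact absurd h' hf0
          · exact pow_eq_zero_iff (two_ne_zero) |>.mp h'
        refine ⟨⟨fun _ => hs2, fun _ => hApP⟩, fun h0 => absurd hApP h0, fun _ => ?_⟩
        intro hf2z
        have : s₁ ^ 4 * dupNum W x = 0 := by rw [← PROD', hf2z, zero_mul]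
        rcases mul_eq_zero.mp this with h' | h'
        · exact hs1 (pow_eq_zero_iff (by norm_num) |>.mp h')
        · exact hdn h'
      · -- `2P ≠ 0`
        have htd : twoDiv W x ≠ 0 := by
          intro h0
          apply h2
          apply (add_self_eq_zero_iff hP0).mpr
          rwa [hxP]
        have hne : s₁ ^ 4 * twoDiv W x ≠ 0 := mul_ne_zero (pow_ne_zero 4 hs1) htd
        rcases hAP with hAP | hAP
        · -- `A = P`
          have hAmP : A - P = 0 := by rw [hAP, sub_self]
          have hs0 : s₀ = 0 := G0a.mp hAmP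
          have hf0 : f₀ ≠ 0 := G0c hs0
          have e3 : f₀ * s₂ ^ 2 = s₁ ^ 4 * twoDiv W x := by
            rw [← SUM', hs0]; ring
          have hs2 : s₂ ≠ 0 := by
            intro h0
            apply hne
            rw [← e3, h0]; ring
          have hApP : A + P ≠ 0 := by rw [hAP]; exact h2
          refine ⟨⟨fun h0 => absurd h0 hApP, fun h0 => absurd h0 hs2⟩, fun _ => ?_,
            fun h0 => absurd h0 hs2⟩
          have dup := xc_add_self hP0 h2
          rw [hxP] at dup
          rw [hAP]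
          have : f₀ * (xc (P + P) * s₂ ^ 2 - f₂) = 0 := by
            linear_combination xc (P + P) * e3 + s₁ ^ 4 * dup - PROD'
          rcases mul_eq_zero.mp this with h' | h'
          · exact absurd h' hf0
          · exact sub_eq_zero.mp h'
        · -- `A = -P`
          have hApP : A + P = 0 := by rw [hAP, neg_add_cancel]
          have hAmP : A - P ≠ 0 := by
            rw [hAP]
            intro h0
            apply h2
            have : -(P + P) = 0 := by rw [← h0]; abel
            exact neg_eq_zero.mp this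
          have hs0 : s₀ ≠ 0 := fun h0 => hAmP (G0a.mpr h0)
          have hs2 : s₂ = 0 := by
            rcases mul_eq_zero.mp hs20 with h' | h'
            · exact h'
            · exact absurd h' hs0
          refine ⟨⟨fun _ => hs2, fun _ => hApP⟩, fun h0 => absurd hApP h0, fun _ => ?_⟩
          intro hf2z
          apply hne
          rw [← SUM', hf2z, hs2]; ring
    · -- generic case
      have hApP : A + P ≠ 0 := add_ne_zero_of_xc_ne hx
      have hAmP : A - P ≠ 0 := sub_ne_zero_of_xc_ne hx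
      have hs0 : s₀ ≠ 0 := fun h0 => hAmP (G0a.mpr h0)
      have e2 : xc (A - P) * s₀ ^ 2 = f₀ := G0b hAmP
      have e3 := xc_add_add_xc_sub hA0 hP0 hx
      rw [hxP] at e3 hx
      have e4 : (xc A - x) * s₁ ^ 2 = -(s₂ * s₀) := by
        rw [sub_mul, e1, hf1]; ring
      have hs20 : s₂ * s₀ ≠ 0 := by
        intro h0
        rw [h0, _root_.neg_zero] at e4
        rcases mul_eq_zero.mp e4 with h' | h'
        · exact hx (sub_eq_zero.mp h')
        · exact hs1 (pow_eq_zero_iff (two_ne_zero) |>.mp h')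
      have hs2 : s₂ ≠ 0 := left_ne_zero_of_mul hs20
      refine ⟨⟨fun h0 => absurd h0 hApP, fun h0 => absurd h0 hs2⟩, fun _ => ?_,
        fun h0 => absurd h0 hs2⟩
      have h3 : (xc (A + P) + xc (A - P)) * (s₂ * s₀) ^ 2 =
          f₂ * s₀ ^ 2 + f₀ * s₂ ^ 2 := by
        rw [SUM, ← e1]
        have : (s₂ * s₀) ^ 2 = ((xc A - x) * s₁ ^ 2) ^ 2 := by rw [e4]; ring
        rw [this]
        linear_combination (s₁ ^ 4) * e3
      have : s₀ ^ 2 * (xc (A + P) * s₂ ^ 2 - f₂) = 0 := by
        linear_combination h3 - s₂ ^ 2 * e2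
      rcases mul_eq_zero.mp this with h' | h'
      · exact absurd (pow_eq_zero_iff (two_ne_zero) |>.mp h') hs0
      · exact sub_eq_zero.mp h'

lemma good_nat (n : ℕ) : Good h (n : ℤ) ∧ Good h ((n : ℤ) + 1) := by
  induction n with
  | zero => exact ⟨by simpa using good_zero h, by simpa using good_one h⟩
  | succ n ih =>
    refine ⟨by push_cast; exact ih.2, ?_⟩
    have := good_step h ((n : ℤ) + 1) (by simpa using ih.1) ih.2
    push_cast
    exact this

lemma good_neg {m : ℤ} (G : Good h m) : Good h (-m) := by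
  obtain ⟨Ga, Gb, Gc⟩ := G
  unfold Good
  rw [neg_smul, psiVal_neg, phiVal_neg, xc_neg, neg_eq_zero, neg_eq_zero, neg_sq]
  exact ⟨Ga, fun h0 => Gb (fun h1 => h0 (by rw [h1, Point.neg_zero])), Gc⟩

/-- The inductive statement holds for every integer. -/
theorem good_all (m : ℤ) : Good h m := by
  rcases Int.eq_nat_or_neg m with ⟨n, rfl | rfl⟩
  · exact (good_nat h n).1
  · exact good_neg h (good_nat h n).1

/-- **Torsion criterion**: `m • P = 0` iff the `m`-th division polynomial vanishes at `P`. -/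
theorem zsmul_eq_zero_iff_psiVal (m : ℤ) :
    m • Point.some x y h = 0 ↔ psiVal W x y m = 0 :=
  (good_all h m).1

/-- **Multiplication formula**: `x(m • P) · ψ_m(P)² = φ_m(P)`. -/
theorem xc_zsmul_mul_psiVal_sq (m : ℤ) (hm : m • Point.some x y h ≠ 0) :
    xc (m • Point.some x y h) * psiVal W x y m ^ 2 = phiVal W x y m :=
  (good_all h m).2.1 hm

/-- `ψ_m` and `φ_m` have no common zero at a nonsingular point. -/
theorem phiVal_ne_zero_of_psiVal_eq_zero (h : W.Nonsingular x y) (m : ℤ)
    (hm : psiVal W x y m = 0) : phiVal W x y m ≠ 0 :=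
  (good_all h m).2.2 hm

end Induction

end Fermat.Agent.Tors
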