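/-
Tors project (block A of S13): bridge between the values `psiVal`, `phiVal` of
`Fermat.Agent.Tors.MulFormula` and Mathlib's division polynomials `W.ψ`, `W.preΨ`, `W.ΨSq`,
`W.Φ`; the torsion criterion and the multiplication formula in terms of Mathlib's polynomials.
-/
import Fermat.Agent.Tors.MulFormula

set_option autoImplicit false

namespace Fermat.Agent.Tors

open WeierstrassCurve WeierstrassCurve.Affine WeierstrassCurve.Affine.Point Polynomial
open Fermat.Agent.S05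

variable {K : Type*} [Field K] {W : Affine K}

lemma eval_Ψ₂Sq (x : K) :
    (W.Ψ₂Sq).eval x = 4 * x ^ 3 + W.b₂ * x ^ 2 + 2 * W.b₄ * x + W.b₆ := by
  simp [WeierstrassCurve.Ψ₂Sq]

lemma eval_Ψ₂Sq_eq_sq {x y : K} (he : W.Equation x y) :
    (W.Ψ₂Sq).eval x = psi2 W x y ^ 2 := by
  rw [eval_Ψ₂Sq, psi2_sq he]

lemma eval_Ψ₃ (x : K) : (W.Ψ₃).eval x = cPar W x := by
  simp [WeierstrassCurve.Ψ₃, cPar]

lemma eval_preΨ₄ {x y : K} (he : W.Equation x y) :
    (W.preΨ₄).eval x = aPar W x * cPar W x - psi2 W x y ^ 4 := by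
  have hb := psi2_sq he
  have hrel := W.b_relation
  rw [show psi2 W x y ^ 4 = (psi2 W x y ^ 2) ^ 2 by ring, hb]
  simp only [WeierstrassCurve.preΨ₄, aPar, cPar, eval_add, eval_mul, eval_pow, eval_X, eval_C,
    eval_ofNat]
  linear_combination (x ^ 2) * hrel

/-- `psiVal` is the value of Mathlib's bivariate division polynomial `W.ψ n`. -/
theorem psiVal_eq_evalEval {x y : K} (he : W.Equation x y) (n : ℤ) :
    psiVal W x y n = (W.ψ n).evalEval x y := by
  have := map_normEDS (evalEvalRingHom x y) W.ψ₂ (C W.Ψ₃) (C W.preΨ₄) n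
  simp only [coe_evalEvalRingHom] at this
  rw [WeierstrassCurve.ψ, this, WeierstrassCurve.ψ₂, evalEval_polynomialY, evalEval_C,
    evalEval_C, eval_Ψ₃, eval_preΨ₄ he]
  rfl

/-- `psiVal` in terms of Mathlib's univariate `W.preΨ n`. -/
theorem psiVal_eq_preΨ {x y : K} (he : W.Equation x y) (n : ℤ) :
    psiVal W x y n = (W.preΨ n).eval x * if Even n then psi2 W x y else 1 := by
  have := map_preNormEDS (evalRingHom x) (W.Ψ₂Sq ^ 2) W.Ψ₃ W.preΨ₄ n
  simp only [coe_evalRingHom, eval_pow] at this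
  rw [WeierstrassCurve.preΨ, this, eval_Ψ₂Sq_eq_sq he, eval_Ψ₃, eval_preΨ₄ he, ← pow_mul]
  rfl

/-- `psiVal² = ΨSq`. -/
theorem psiVal_sq {x y : K} (he : W.Equation x y) (n : ℤ) :
    psiVal W x y n ^ 2 = (W.ΨSq n).eval x := by
  rw [psiVal_eq_preΨ he, WeierstrassCurve.ΨSq, eval_mul, eval_pow, mul_pow]
  split_ifs with hn
  · rw [eval_Ψ₂Sq_eq_sq he]
  · simp

/-- `phiVal = Φ`. -/
theorem phiVal_eq_Φ {x y : K} (he : W.Equation x y) (n : ℤ) :
    phiVal W x y n = (W.Φ n).eval x := by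
  rw [phiVal_eq, psiVal_sq he, psiVal_eq_preΨ he (n + 1), psiVal_eq_preΨ he (n - 1),
    WeierstrassCurve.Φ, eval_sub, eval_mul, eval_mul, eval_mul, eval_X]
  have h1 : Even (n + 1) ↔ ¬ Even n := by
    rw [Int.even_add_one]
  have h2 : Even (n - 1) ↔ ¬ Even n := by
    rw [Int.even_sub_one]
  by_cases hn : Even n
  · rw [if_neg (h1.not.mpr (not_not.mpr hn)), if_neg (h2.not.mpr (not_not.mpr hn)), if_pos hn]
    simp
  · rw [if_pos (h1.mpr hn), if_pos (h2.mpr hn), if_neg hn, eval_Ψ₂Sq_eq_sq he]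
    ring

section Point

variable [DecidableEq K] {x y : K} (h : W.Nonsingular x y)

/-- **Torsion criterion**, in terms of Mathlib's `ΨSq`: `m • P = 0 ↔ ΨSq_m(x(P)) = 0`. -/
theorem zsmul_eq_zero_iff_ΨSq (m : ℤ) :
    m • Point.some x y h = 0 ↔ (W.ΨSq m).eval x = 0 := by
  rw [zsmul_eq_zero_iff_psiVal h m, ← psiVal_sq h.1, sq_eq_zero_iff]

/-- **Torsion criterion** for odd `m`, in terms of Mathlib's `preΨ`. -/
theorem zsmul_eq_zero_iff_preΨ_of_odd {m : ℤ} (hm : ¬ Even m) :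
    m • Point.some x y h = 0 ↔ (W.preΨ m).eval x = 0 := by
  rw [zsmul_eq_zero_iff_psiVal h m, psiVal_eq_preΨ h.1, if_neg hm, mul_one]

/-- **Multiplication formula**, in terms of Mathlib's `ΨSq` and `Φ`:
`x(m • P) · ΨSq_m(x(P)) = Φ_m(x(P))`. -/
theorem xc_zsmul_mul_ΨSq (m : ℤ) (hm : m • Point.some x y h ≠ 0) :
    xc (m • Point.some x y h) * (W.ΨSq m).eval x = (W.Φ m).eval x := by
  rw [← psiVal_sq h.1, ← phiVal_eq_Φ h.1]
  exact xc_zsmul_mul_psiVal_sq h m hm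

/-- `ΨSq_m` and `Φ_m` have no common zero at the `x`-coordinate of a nonsingular point. -/
theorem Φ_ne_zero_of_ΨSq_eq_zero (h : W.Nonsingular x y) (m : ℤ)
    (hm : (W.ΨSq m).eval x = 0) : (W.Φ m).eval x ≠ 0 := by
  rw [← phiVal_eq_Φ h.1]
  apply phiVal_ne_zero_of_psiVal_eq_zero h
  rw [← sq_eq_zero_iff, psiVal_sq h.1, hm]

end Point

end Fermat.Agent.Tors
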