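/-
Tors project (block A' of S13): counting torsion points with the division polynomial.

For a Weierstrass curve `W` over a field `K`, and odd `n` with `(n : K) ≠ 0`:
* the `n`-torsion points are finite in number, at most `n²`;
* if `K` is algebraically closed, `Δ ≠ 0` and `n ≥ 3`, there is a nonzero `n`-torsion point.
-/
import Fermat.Agent.Tors.DivPoly

set_option autoImplicit false

namespace Fermat.Agent.Tors

open WeierstrassCurve WeierstrassCurve.Affine WeierstrassCurve.Affine.Point Polynomial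
open Fermat.Agent.S05

variable {K : Type*} [Field K] [DecidableEq K] {W : Affine K}

/-- **Torsion criterion** (natural number version): for odd `n`,
`n • P = 0 ↔ preΨ'_n(x(P)) = 0`. -/
theorem nsmul_eq_zero_iff_preΨ' {x y : K} (h : W.Nonsingular x y) {n : ℕ} (hn : Odd n) :
    n • Point.some x y h = 0 ↔ (W.preΨ' n).eval x = 0 := by
  have hn' : ¬ Even (n : ℤ) := by
    rw [Int.not_even_iff_odd]
    exact_mod_cast hn
  rw [← natCast_zsmul, zsmul_eq_zero_iff_preΨ_of_odd h hn', WeierstrassCurve.preΨ_ofNat]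

/-- Torsion criterion for a general nonzero point. -/
theorem nsmul_eq_zero_iff_preΨ'_xc {P : W.Point} (hP : P ≠ 0) {n : ℕ} (hn : Odd n) :
    n • P = 0 ↔ (W.preΨ' n).eval (xc P) = 0 := by
  obtain ⟨x, y, h, rfl⟩ := exists_some_of_ne_zero hP
  rw [xc_some]
  exact nsmul_eq_zero_iff_preΨ' h hn

variable (W) in
/-- The set of nonzero `n`-torsion points. -/
def torsionSet (n : ℕ) : Set W.Point := {P | P ≠ 0 ∧ n • P = 0}

open Classical in
/-- Auxiliary: a finset containing all nonzero points with a given `x`-coordinate. -/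
noncomputable def fibreFinset (W : Affine K) (r : K) : Finset W.Point :=
  if hr : ∃ P : W.Point, P ≠ 0 ∧ xc P = r then {hr.choose, -hr.choose} else ∅

lemma mem_fibreFinset {P : W.Point} (hP : P ≠ 0) : P ∈ fibreFinset W (xc P) := by
  classical
  have hr : ∃ Q : W.Point, Q ≠ 0 ∧ xc Q = xc P := ⟨P, hP, rfl⟩
  rw [fibreFinset, dif_pos hr]
  obtain ⟨hQ0, hQx⟩ := hr.choose_spec
  rcases (xc_eq_iff hP hQ0).mp hQx.symm with h | h
  · exact Finset.mem_insert.mpr (Or.inl h)
  · exact Finset.mem_insert.mpr (Or.inr (Finset.mem_singleton.mpr h))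

lemma card_fibreFinset_le (r : K) : (fibreFinset W r).card ≤ 2 := by
  classical
  rw [fibreFinset]
  split_ifs
  · exact Finset.card_le_two
  · simp

lemma torsionSet_subset {n : ℕ} (hn : Odd n) (hnK : (n : K) ≠ 0) :
    torsionSet W n ⊆ ↑((W.preΨ' n).roots.toFinset.biUnion (fibreFinset W)) := by
  classical
  intro P hP
  obtain ⟨hP0, hPn⟩ := hP
  simp only [Finset.coe_biUnion, Finset.mem_coe, Multiset.mem_toFinset, Set.mem_iUnion,
    exists_prop]
  refine ⟨xc P, ?_, mem_fibreFinset hP0⟩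
  have h0 := (nsmul_eq_zero_iff_preΨ'_xc hP0 hn).mp hPn
  rw [mem_roots']
  exact ⟨W.preΨ'_ne_zero hnK, h0⟩

lemma card_biUnion_fibre_le {n : ℕ} (hn : Odd n) (hnK : (n : K) ≠ 0) :
    ((W.preΨ' n).roots.toFinset.biUnion (fibreFinset W)).card ≤ n ^ 2 - 1 := by
  classical
  calc ((W.preΨ' n).roots.toFinset.biUnion (fibreFinset W)).card
      ≤ ∑ r ∈ (W.preΨ' n).roots.toFinset, (fibreFinset W r).card := Finset.card_biUnion_le
    _ ≤ ∑ _r ∈ (W.preΨ' n).roots.toFinset, 2 := Finset.sum_le_sum fun r _ => card_fibreFinset_le r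
    _ = (W.preΨ' n).roots.toFinset.card * 2 := by rw [Finset.sum_const, smul_eq_mul]
    _ ≤ (W.preΨ' n).natDegree * 2 :=
        Nat.mul_le_mul_right _ ((Multiset.toFinset_card_le _).trans (card_roots' _))
    _ = (n ^ 2 - 1) / 2 * 2 := by
        rw [W.natDegree_preΨ' hnK, if_neg (Nat.not_even_iff_odd.mpr hn)]
    _ ≤ n ^ 2 - 1 := Nat.div_mul_le_self _ _

/-- The nonzero `n`-torsion points form a finite set (`n` odd, `n ≠ 0` in `K`). -/
theorem torsionSet_finite {n : ℕ} (hn : Odd n) (hnK : (n : K) ≠ 0) : (torsionSet W n).Finite :=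
  (Finset.finite_toSet _).subset (torsionSet_subset hn hnK)

/-- There are at most `n² - 1` nonzero `n`-torsion points (`n` odd, `n ≠ 0` in `K`). -/
theorem ncard_torsionSet_le {n : ℕ} (hn : Odd n) (hnK : (n : K) ≠ 0) :
    (torsionSet W n).ncard ≤ n ^ 2 - 1 := by
  classical
  calc (torsionSet W n).ncard
      ≤ (↑((W.preΨ' n).roots.toFinset.biUnion (fibreFinset W)) : Set W.Point).ncard :=
        Set.ncard_le_ncard (torsionSet_subset hn hnK) (Finset.finite_toSet _)
    _ = ((W.preΨ' n).roots.toFinset.biUnion (fibreFinset W)).card := Set.ncard_coe_finset _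
    _ ≤ n ^ 2 - 1 := card_biUnion_fibre_le hn hnK

/-- The `n`-torsion submodule as a set is `torsionSet ∪ {0}`. -/
lemma torsionBy_eq (n : ℕ) :
    ((Submodule.torsionBy ℤ W.Point (n : ℤ) : Submodule ℤ W.Point) : Set W.Point) =
      insert 0 (torsionSet W n) := by
  ext P
  simp only [SetLike.mem_coe, Submodule.mem_torsionBy_iff, natCast_zsmul, Set.mem_insert_iff,
    torsionSet, Set.mem_ofPred_eq]
  constructor
  · intro h
    by_cases hP : P = 0
    · exact Or.inl hP
    · exact Or.inr ⟨hP, h⟩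
  · rintro (rfl | ⟨_, h⟩)
    · simp
    · exact h

/-- The `n`-torsion of `W(K)` is finite (`n` odd, `n ≠ 0` in `K`). -/
theorem finite_torsionBy {n : ℕ} (hn : Odd n) (hnK : (n : K) ≠ 0) :
    Finite (Submodule.torsionBy ℤ W.Point (n : ℤ)) := by
  have : ((Submodule.torsionBy ℤ W.Point (n : ℤ) : Submodule ℤ W.Point) : Set W.Point).Finite := by
    rw [torsionBy_eq]
    exact (torsionSet_finite hn hnK).insert 0
  exact this.to_subtype

/-- **Upper bound**: `W(K)` has at most `n²` points of `n`-torsion (`n` odd, `n ≠ 0` in `K`). -/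
theorem card_torsionBy_le {n : ℕ} (hn : Odd n) (hnK : (n : K) ≠ 0) :
    Nat.card (Submodule.torsionBy ℤ W.Point (n : ℤ)) ≤ n ^ 2 := by
  have h1 : Nat.card (Submodule.torsionBy ℤ W.Point (n : ℤ)) =
      ((Submodule.torsionBy ℤ W.Point (n : ℤ) : Submodule ℤ W.Point) : Set W.Point).ncard :=
    (Nat.card_coe_set_eq _)
  rw [h1, torsionBy_eq]
  have hpos : 0 < n ^ 2 := by
    have : 0 < n := hn.pos
    positivity
  calc (insert 0 (torsionSet W n)).ncard ≤ (torsionSet W n).ncard + 1 := Set.ncard_insert_le _ _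
    _ ≤ (n ^ 2 - 1) + 1 := Nat.add_le_add_right (ncard_torsionSet_le hn hnK) 1
    _ = n ^ 2 := Nat.sub_add_cancel hpos

/-- **Existence**: over an algebraically closed field, a curve with `Δ ≠ 0` has a nonzero
point of `n`-torsion for every odd `n ≥ 3` with `n ≠ 0` in `K`. -/
theorem exists_ne_zero_nsmul_eq_zero [IsAlgClosed K] (hΔ : W.Δ ≠ 0) {n : ℕ} (hn : Odd n)
    (hn3 : 2 < n) (hnK : (n : K) ≠ 0) : ∃ P : W.Point, P ≠ 0 ∧ n • P = 0 := by
  -- a root of the division polynomial
  have hdeg : (W.preΨ' n).degree ≠ 0 := by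
    have := W.natDegree_preΨ'_pos hn3 hnK
    intro h0
    rw [natDegree_eq_of_degree_eq_some h0] at this
    exact lt_irrefl _ this
  obtain ⟨x, hx⟩ := IsAlgClosed.exists_root (W.preΨ' n) hdeg
  -- a point above it
  have hdeg2 : (X ^ 2 + C (W.a₁ * x + W.a₃) * X
      - C (x ^ 3 + W.a₂ * x ^ 2 + W.a₄ * x + W.a₆) : K[X]).degree ≠ 0 := by
    have : (X ^ 2 + C (W.a₁ * x + W.a₃) * X
      - C (x ^ 3 + W.a₂ * x ^ 2 + W.a₄ * x + W.a₆) : K[X]).degree = 2 := by
      compute_degree!
    rw [this]; norm_num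
  obtain ⟨y, hy⟩ := IsAlgClosed.exists_root _ hdeg2
  have he : W.Equation x y := by
    rw [equation_iff]
    simp only [IsRoot.def, eval_sub, eval_add, eval_mul, eval_pow, eval_X, eval_C] at hy
    linear_combination hy
  have hns : W.Nonsingular x y := (equation_iff_nonsingular_of_Δ_ne_zero hΔ).mp he
  exact ⟨Point.some x y hns, Point.some_ne_zero _, (nsmul_eq_zero_iff_preΨ' hns hn).mpr hx⟩

end Fermat.Agent.Tors
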