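/-
Tors project (block A' of S13): the `p`-torsion of an elliptic curve over an algebraically
closed field as a `ZMod p`-module, in the language of the prelude
(`Fermat.Prelude.Def_FLTPrelim_GaloisRep`): finiteness, `card ≤ p²`, nontriviality, and the
`p`-group consequences for a proper nonzero submodule (it is a line, and so is the quotient).
-/
import Fermat.Agent.Tors.Count
import Fermat.Prelude.Def_FLTPrelim_GaloisRep

set_option autoImplicit false

namespace Fermat.Agent.Tors

open WeierstrassCurve WeierstrassCurve.Affine WeierstrassCurve.Affine.Point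

section Abstract

variable {p : ℕ} [Fact p.Prime] {V : Type*} [AddCommGroup V] [Module (ZMod p) V]

/-- A finite `ZMod p`-module with at most `p²` elements has dimension at most `2`. -/
lemma finrank_le_two_of_card_le [Finite V] (hV : Nat.card V ≤ p ^ 2) :
    Module.finrank (ZMod p) V ≤ 2 := by
  have h1 : Nat.card V = p ^ Module.finrank (ZMod p) V := by
    rw [Module.natCard_eq_pow_finrank (K := ZMod p), Nat.card_zmod]
  rw [h1] at hV
  exact (Nat.pow_le_pow_iff_right (Fact.out : p.Prime).one_lt).mp hV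

/-- In a finite `ZMod p`-module with at most `p²` elements, a proper nonzero submodule is a
line and the module is a plane. -/
theorem finrank_of_ne_bot_of_ne_top [Finite V] (hV : Nat.card V ≤ p ^ 2)
    {N : Submodule (ZMod p) V} (hbot : N ≠ ⊥) (htop : N ≠ ⊤) :
    Module.finrank (ZMod p) N = 1 ∧ Module.finrank (ZMod p) V = 2 := by
  have h2 := finrank_le_two_of_card_le hV
  have h3 : Module.finrank (ZMod p) N < Module.finrank (ZMod p) V := Submodule.finrank_lt htop
  have h4 : 0 < Module.finrank (ZMod p) N := by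
    rw [Module.finrank_pos_iff]
    exact (Submodule.nontrivial_iff_ne_bot).mpr hbot
  omega

theorem card_of_ne_bot_of_ne_top [Finite V] (hV : Nat.card V ≤ p ^ 2)
    {N : Submodule (ZMod p) V} (hbot : N ≠ ⊥) (htop : N ≠ ⊤) :
    Nat.card N = p ∧ Nat.card V = p ^ 2 := by
  obtain ⟨h1, h2⟩ := finrank_of_ne_bot_of_ne_top hV hbot htop
  constructor
  · rw [Module.natCard_eq_pow_finrank (K := ZMod p), Nat.card_zmod, h1, pow_one]
  · rw [Module.natCard_eq_pow_finrank (K := ZMod p), Nat.card_zmod, h2]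

/-- A submodule containing a proper nonzero submodule `N` (of a module with `≤ p²` elements)
is `N` or everything. -/
theorem eq_or_eq_top_of_le [Finite V] (hV : Nat.card V ≤ p ^ 2)
    {N N' : Submodule (ZMod p) V} (hbot : N ≠ ⊥) (htop : N ≠ ⊤) (hle : N ≤ N') :
    N' = N ∨ N' = ⊤ := by
  by_cases h : N' = ⊤
  · exact Or.inr h
  left
  have hbot' : N' ≠ ⊥ := fun h0 => hbot (le_bot_iff.mp (h0 ▸ hle))
  obtain ⟨h1, _⟩ := finrank_of_ne_bot_of_ne_top hV hbot htop
  obtain ⟨h1', _⟩ := finrank_of_ne_bot_of_ne_top hV hbot' h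
  exact (Submodule.eq_of_le_of_finrank_eq hle (h1.trans h1'.symm)).symm

/-- The quotient by a proper nonzero submodule has `p` elements. -/
theorem card_quotient_of_ne_bot_of_ne_top [Finite V] (hV : Nat.card V ≤ p ^ 2)
    {N : Submodule (ZMod p) V} (hbot : N ≠ ⊥) (htop : N ≠ ⊤) :
    Nat.card (V ⧸ N) = p := by
  obtain ⟨h1, h2⟩ := finrank_of_ne_bot_of_ne_top hV hbot htop
  have h3 := N.finrank_quotient_add_finrank
  rw [Module.natCard_eq_pow_finrank (K := ZMod p), Nat.card_zmod]
  have : Module.finrank (ZMod p) (V ⧸ N) = 1 := by omega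
  rw [this, pow_one]

end Abstract

section Prelude

variable {R : Type*} {K : Type*} [CommRing R] [Field K] [DecidableEq K] [Algebra R K]
  (W' : Affine R) (p : ℕ)

/-- Finiteness of the `p`-torsion (`p` odd, `p ≠ 0` in `K`). -/
theorem finite_torsion (hp : Odd p) (hpK : (p : K) ≠ 0) :
    Finite (Submodule.torsionBy ℤ (W'⁄K).Point p) :=
  finite_torsionBy hp hpK

/-- At most `p²` points of `p`-torsion (`p` odd, `p ≠ 0` in `K`). -/
theorem card_torsion_le (hp : Odd p) (hpK : (p : K) ≠ 0) :
    Nat.card (Submodule.torsionBy ℤ (W'⁄K).Point p) ≤ p ^ 2 :=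
  card_torsionBy_le hp hpK

/-- The `p`-torsion is nontrivial over an algebraically closed field (`Δ ≠ 0`, `p ≥ 3` odd,
`p ≠ 0` in `K`). -/
theorem nontrivial_torsion [IsAlgClosed K] (hΔ : (W'⁄K).Δ ≠ 0) (hp : Odd p) (hp3 : 2 < p)
    (hpK : (p : K) ≠ 0) : Nontrivial (Submodule.torsionBy ℤ (W'⁄K).Point p) := by
  obtain ⟨P, hP0, hP⟩ := exists_ne_zero_nsmul_eq_zero (W := W'⁄K) hΔ hp hp3 hpK
  have hmem : P ∈ Submodule.torsionBy ℤ (W'⁄K).Point p := by
    rw [Submodule.mem_torsionBy_iff, natCast_zsmul]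
    exact hP
  refine ⟨⟨⟨P, hmem⟩, 0, ?_⟩⟩
  intro h
  exact hP0 (congrArg Subtype.val h)

end Prelude

end Fermat.Agent.Tors
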